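import Mathlib
import Fermat.Agent.S33x.Iface.ApproxChart
import Fermat.Agent.S33x.Consumer.OfSubgroup
import Fermat.Agent.S33x.Consumer.GoodLevelTarget

/-!
# P-S33, interface (X4) (helper53): the target of the consumer from approximate charts

Glue between the output of LAYER 3 (`Iface.NoTrivOfCharts`: a finite group of `p`-power order
with an inertia action and approximate Cech charts has no nonzero inertia-trivial subquotient), the
output of LAYERS 1-2 (approximate charts on the Kummer subgroup `K ≤ JTors (M₀ * p) (p ^ m)` at the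
good levels, together with `(τ - 1) X ≤ K` for `τ` in the inertia group) and the consumer
(`Consumer.GoodLevelTarget.QOrdAtGoodLevels`, `Consumer.Final.QOrdTarget`).

* `ordPts_of_charts` : the abstract statement (any finite `p`-power torsion group `X` with maps
  `act σ` satisfying the action axioms on the inertia group, any subgroup `K` containing all
  `act τ x - x`, any family of maps `actK` on `K` compatible with `act` on the inertia group);
* `ChartsAtGoodLevels` : the literal export asked from LAYERS 1-2 (via KummerPn and Cech/Inst);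
* `qOrdAtGoodLevels_of_charts`, `qOrdTarget_of_charts` : the targets of the consumer.

Then `S33.result := Final.s33_of_target (qOrdTarget_of_charts L3 L2)`.
-/

set_option autoImplicit false
set_option linter.unusedSectionVars false

noncomputable section

namespace Fermat.Agent.S33x.Bridge.TargetOfCharts

open Fermat.Agent.S33x.Iface Fermat.Agent.S33x.Consumer.Ord Fermat.Agent.S33x.Consumer.OfSubgroup
  Fermat.Agent.S33x.Consumer.Final Fermat.Agent.S33x.Consumer.GoodLevelTarget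
  Fermat.Agent.Gateway.S31Red

local notation "Qbar" => AlgebraicClosure ℚ
local notation "Γℚ" => (AlgebraicClosure ℚ ≃ₐ[ℚ] AlgebraicClosure ℚ)

/-- **(X4), abstract form**: `OrdPts` from approximate charts on a subgroup containing all
`act τ x - x`. -/
theorem ordPts_of_charts (hL3 : NoTrivOfCharts) {p : ℕ} (hp : p.Prime) (hp2 : p ≠ 2)
    (P : ValuationSubring Qbar) (hP : P.LiesOverPrime p)
    {X : Type} [AddCommGroup X] [Finite X] (act : Γℚ → X → X)
    (h1 : ∀ x, act 1 x = x)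
    (hmul : ∀ σ ∈ P.inertiaSubgroupIn ℚ, ∀ τ ∈ P.inertiaSubgroupIn ℚ, ∀ x,
      act (σ * τ) x = act σ (act τ x))
    (hadd : ∀ σ ∈ P.inertiaSubgroupIn ℚ, ∀ x y, act σ (x + y) = act σ x + act σ y)
    (htors : ∀ x : X, ∃ m : ℕ, p ^ m • x = 0)
    (K : AddSubgroup X) (actK : Γℚ → K → K)
    (hcompat : ∀ τ ∈ P.inertiaSubgroupIn ℚ, ∀ w : K, ((actK τ w : K) : X) = act τ (w : X))
    (hK : ∀ τ ∈ P.inertiaSubgroupIn ℚ, ∀ x : X, act τ x - x ∈ K)
    (hch : HasApproxCharts p P K actK) :
    OrdPts (P.inertiaSubgroupIn ℚ : Set Γℚ) act := by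
  refine ordPts_of_noTriv_subtype (P.inertiaSubgroupIn ℚ : Set Γℚ) act K actK hcompat hK ?_
  refine hL3 p hp hp2 P hP K actK ?_ ?_ ?_ ?_ hch
  · intro x
    apply Subtype.ext
    rw [hcompat 1 (one_mem _), h1]
  · intro σ hσ τ hτ x
    apply Subtype.ext
    rw [hcompat _ (mul_mem hσ hτ), hcompat σ hσ, hcompat τ hτ, hmul σ hσ τ hτ]
  · intro σ hσ x y
    apply Subtype.ext
    rw [AddSubgroup.coe_add, hcompat σ hσ, hcompat σ hσ, hcompat σ hσ, AddSubgroup.coe_add,
      hadd σ hσ]
  · intro x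
    obtain ⟨m, hm⟩ := htors (x : X)
    refine ⟨m, Subtype.ext ?_⟩
    rw [AddSubgroup.coe_nsmul, hm, AddSubgroup.coe_zero]

/-- **What LAYERS 1-2 export** (KummerPn + Cech/Inst) at the good levels `M₀ * p`: a place `P0`
over `p` and, for every `m`, a subgroup `K` of `J₀(M₀ p)[p ^ m]` containing all `τ x - x` (`τ` in
the inertia group of `P0`) and carrying approximate charts for SOME family of maps `actK` on `K`
which restricts the Galois action for `τ` in the inertia group of `P0` (e.g.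
`Consumer.OfSubgroup.restrictAct` or `L3.NoTrivSub.restrictAct`). -/
def ChartsAtGoodLevels : Prop :=
  ∀ (M₀ p : ℕ) [NeZero M₀], p.Prime → p ≠ 2 → ¬ p ∣ M₀ → 4 ∣ M₀ →
    ∃ P0 : ValuationSubring Qbar, P0.LiesOverPrime p ∧ ∀ m : ℕ,
      ∃ K : AddSubgroup (JTors (M₀ * p) (p ^ m)),
        (∀ τ ∈ P0.inertiaSubgroupIn ℚ, ∀ x : JTors (M₀ * p) (p ^ m),
          galTors (M₀ * p) (p ^ m) τ x - x ∈ K) ∧
        ∃ actK : Γℚ → K → K,
          (∀ τ ∈ P0.inertiaSubgroupIn ℚ, ∀ w : K,
            ((actK τ w : K) : JTors (M₀ * p) (p ^ m)) = galTors (M₀ * p) (p ^ m) τ (w : _)) ∧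
          HasApproxCharts p P0 K actK

/-- the export in terms of the canonical restricted action `Consumer.OfSubgroup.restrictAct`. -/
theorem chartsAtGoodLevels_of_restrictAct
    (h : ∀ (M₀ p : ℕ) [NeZero M₀], p.Prime → p ≠ 2 → ¬ p ∣ M₀ → 4 ∣ M₀ →
      ∃ P0 : ValuationSubring Qbar, P0.LiesOverPrime p ∧ ∀ m : ℕ,
        ∃ K : AddSubgroup (JTors (M₀ * p) (p ^ m)),
          (∀ τ ∈ P0.inertiaSubgroupIn ℚ, ∀ x : JTors (M₀ * p) (p ^ m),
            galTors (M₀ * p) (p ^ m) τ x - x ∈ K) ∧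
          HasApproxCharts p P0 K
            (restrictAct (fun σ (x : JTors (M₀ * p) (p ^ m)) => galTors (M₀ * p) (p ^ m) σ x)
              K)) :
    ChartsAtGoodLevels := by
  intro M₀ p _ hp hp2 hpM₀ h4
  obtain ⟨P0, hP0, hK⟩ := h M₀ p hp hp2 hpM₀ h4
  refine ⟨P0, hP0, fun m => ?_⟩
  obtain ⟨K, hK1, hch⟩ := hK m
  exact ⟨K, hK1, _, fun τ hτ w => coe_restrictAct _ K hK1 hτ w, hch⟩

/-- **(X4)**: the target at the good levels from LAYER 3 and LAYERS 1-2. -/
theorem qOrdAtGoodLevels_of_charts (hL3 : NoTrivOfCharts) (hL2 : ChartsAtGoodLevels) :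
    QOrdAtGoodLevels := by
  intro M₀ p _ hp hp2 hpM₀ h4
  obtain ⟨P0, hP0, hK⟩ := hL2 M₀ p hp hp2 hpM₀ h4
  refine ⟨P0, hP0, fun m => ?_⟩
  obtain ⟨K, hK1, actK, hcompat, hch⟩ := hK m
  have : NeZero (M₀ * p) := ⟨mul_ne_zero (NeZero.ne M₀) hp.ne_zero⟩
  have : Finite (JTors (M₀ * p) (p ^ m)) :=
    Fermat.Agent.Gateway.Assembly.finite_JTors
      (Fermat.Agent.Gateway.Export.coreInputs (M₀ * p)
        (Fermat.Agent.Gateway.Export.d5Input (M₀ * p))) (p ^ m) (pow_pos hp.pos m)
  refine ordPts_of_charts hL3 hp hp2 P0 hP0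
    (fun σ (x : JTors (M₀ * p) (p ^ m)) => galTors (M₀ * p) (p ^ m) σ x) ?_ ?_ ?_ ?_ K
    actK hcompat hK1 hch
  · intro x
    show galTors (M₀ * p) (p ^ m) 1 x = x
    rw [map_one]
    rfl
  · intro σ _ τ _ x
    show galTors (M₀ * p) (p ^ m) (σ * τ) x = _
    rw [map_mul]
    rfl
  · intro σ _ x y
    exact map_add (galTors (M₀ * p) (p ^ m) σ) x y
  · intro x
    refine ⟨m, Subtype.ext ?_⟩
    have := nsmul_coe_eq_zero x
    rw [AddSubgroup.coe_nsmul, this, AddSubgroup.coe_zero]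

/-- **The target of the consumer** from LAYER 3 and LAYERS 1-2. -/
theorem qOrdTarget_of_charts (hL3 : NoTrivOfCharts) (hL2 : ChartsAtGoodLevels) : QOrdTarget :=
  qOrdTarget_of_goodLevels (qOrdAtGoodLevels_of_charts hL3 hL2)

end Fermat.Agent.S33x.Bridge.TargetOfCharts
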